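/-
S24 helper (helper34): Newton polygon lemma, "mixed" version.  If `g` is a unit of a valuation
subring `A` of `F`, the conjugates `φ x g` (`x ∈ X`) in a valued field `(L, vL)` have elementary
symmetric functions coming from a subfield `K0`, and `A ∩ K0` is dominated by `vL ∘ φ x₀`, then
some conjugate `φ x g` is a `vL`-unit.
Design-independent; Mathlib only.
-/
import Mathlib

set_option autoImplicit false

namespace Fermat.Agent.S24.H34

variable {F L : Type*} [Field F] [Field L]

variable {Γ₀ : Type*} [LinearOrderedCommGroupWithZero Γ₀]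

/-- A product of elements `> 1` over a nonempty finset is `> 1`. -/
theorem one_lt_prod_of_forall_one_lt {ι : Type*} (t : Finset ι) (ht : t.Nonempty) (g : ι → Γ₀)
    (hg : ∀ i ∈ t, 1 < g i) : 1 < ∏ i ∈ t, g i := by
  classical
  induction ht using Finset.Nonempty.cons_induction with
  | singleton i => simpa using hg i (by simp)
  | cons i s his hs ih =>
    rw [Finset.prod_cons]
    have h1 : 1 < g i := hg i (by simp)
    have h2 : 1 < ∏ j ∈ s, g j := ih (fun j hj => hg j (by simp [hj]))
    exact one_lt_mul_of_lt_of_le' h1 h2.le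

/-- A product of elements `< 1` over a nonempty finset is `< 1`. -/
theorem prod_lt_one_of_forall_lt_one' {ι : Type*} (t : Finset ι) (ht : t.Nonempty) (g : ι → Γ₀)
    (hg : ∀ i ∈ t, g i < 1) : ∏ i ∈ t, g i < 1 := by
  classical
  induction ht using Finset.Nonempty.cons_induction with
  | singleton i => simpa using hg i (by simp)
  | cons i s his hs ih =>
    rw [Finset.prod_cons]
    have h1 : g i < 1 := hg i (by simp)
    have h2 : ∏ j ∈ s, g j < 1 := ih (fun j hj => hg j (by simp [hj]))
    exact mul_lt_one_of_lt_of_le h1 h2.le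

/-- If no `c x` is `0` or `1`, the product of the `c x` over the set `S` of those `x` with
`1 < c x` strictly dominates the product over every other finite set. -/
theorem prod_lt_prod_filter_one_lt {X : Type*} [Fintype X] [DecidableEq X] (c : X → Γ₀)
    (hc0 : ∀ x, c x ≠ 0) (hc1 : ∀ x, c x ≠ 1) (T : Finset X)
    (hT : T ≠ Finset.univ.filter fun x => 1 < c x) :
    ∏ x ∈ T, c x < ∏ x ∈ Finset.univ.filter (fun x => 1 < c x), c x := by
  set S : Finset X := Finset.univ.filter fun x => 1 < c x with hS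
  have hmemS : ∀ x, x ∈ S ↔ 1 < c x := by
    intro x; simp [hS]
  rw [← Finset.prod_inter_mul_prod_sdiff T S c, ← Finset.prod_inter_mul_prod_sdiff S T c,
    Finset.inter_comm S T]
  have hP : 0 < ∏ x ∈ T ∩ S, c x :=
    zero_lt_iff.mpr (Finset.prod_ne_zero_iff.mpr fun x _ => hc0 x)
  rw [mul_lt_mul_iff_of_pos_left hP]
  have hlt : ∀ x ∈ T \ S, c x < 1 := by
    intro x hx
    have hxS : ¬ 1 < c x := by
      rw [← hmemS]; exact (Finset.mem_sdiff.mp hx).2
    exact lt_of_le_of_ne (not_lt.mp hxS) (hc1 x)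
  have hgt : ∀ x ∈ S \ T, 1 < c x := by
    intro x hx
    exact (hmemS x).mp (Finset.mem_sdiff.mp hx).1
  have ha : ∏ x ∈ T \ S, c x ≤ 1 := Finset.prod_le_one' fun x hx => (hlt x hx).le
  have hb : 1 ≤ ∏ x ∈ S \ T, c x := Finset.one_le_prod' fun x hx => (hgt x hx).le
  by_cases h1 : (T \ S).Nonempty
  · exact lt_of_lt_of_le (prod_lt_one_of_forall_lt_one' _ h1 c hlt) hb
  by_cases h2 : (S \ T).Nonempty
  · exact lt_of_le_of_lt ha (one_lt_prod_of_forall_one_lt _ h2 c hgt)
  exfalso
  rw [Finset.not_nonempty_iff_eq_empty, Finset.sdiff_eq_empty_iff_subset] at h1 h2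
  exact hT (Finset.Subset.antisymm h1 h2)

/-- **Newton polygon, dominant coefficient.** If no `y x` has valuation `0` or `1`, then exactly
one elementary symmetric function of the family `y` has maximal valuation (the one of degree
`#{x | 1 < vL (y x)}`). -/
theorem exists_dominant_esymm (vL : Valuation L Γ₀) {X : Type*} [Fintype X] (y : X → L)
    (hy0 : ∀ x, y x ≠ 0) (hy1 : ∀ x, vL (y x) ≠ 1) :
    ∃ k₀ ≤ Fintype.card X, ∃ M : Γ₀, M ≠ 0 ∧ vL ((Finset.univ.val.map y).esymm k₀) = M ∧
      ∀ k, k ≠ k₀ → vL ((Finset.univ.val.map y).esymm k) < M := by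
  classical
  set S : Finset X := Finset.univ.filter fun x => 1 < vL (y x) with hS
  have hc0 : ∀ x, vL (y x) ≠ 0 := fun x => (Valuation.ne_zero_iff vL).mpr (hy0 x)
  have hM0 : ∏ x ∈ S, vL (y x) ≠ 0 := Finset.prod_ne_zero_iff.mpr fun x _ => hc0 x
  have hlt : ∀ T : Finset X, T ≠ S → vL (∏ x ∈ T, y x) < ∏ x ∈ S, vL (y x) := by
    intro T hT
    rw [map_prod]
    exact prod_lt_prod_filter_one_lt (fun x => vL (y x)) hc0 hy1 T hT
  refine ⟨S.card, Finset.card_le_univ S, ∏ x ∈ S, vL (y x), hM0, ?_, ?_⟩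
  · rw [Finset.esymm_map_val]
    have hSmem : S ∈ Finset.powersetCard S.card (Finset.univ : Finset X) :=
      Finset.mem_powersetCard.mpr ⟨Finset.subset_univ _, rfl⟩
    rw [← Finset.add_sum_erase _ _ hSmem]
    have hrest : vL (∑ T ∈ (Finset.powersetCard S.card (Finset.univ : Finset X)).erase S,
        ∏ x ∈ T, y x) < vL (∏ x ∈ S, y x) := by
      rw [map_prod]
      refine Valuation.map_sum_lt vL hM0 (fun T hT => ?_)
      exact hlt T (Finset.ne_of_mem_erase hT)
    rw [Valuation.map_add_eq_of_lt_left vL hrest, map_prod]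
  · intro k hk
    rw [Finset.esymm_map_val]
    refine Valuation.map_sum_lt vL hM0 (fun T hT => ?_)
    refine hlt T ?_
    rintro rfl
    exact hk (Finset.mem_powersetCard.mp hT).2.symm

/-- The relation `∑ (-1)^j e_j g^(μ-j) = 0` satisfied by `g`, where `e_j` are the elementary
symmetric functions of the conjugates of `g`, pulled back to `F`. -/
theorem sum_esymm_mul_pow_eq_zero {X : Type*} [Fintype X] (φ : X → F →+* L) (x₀ : X) (g : F)
    (r : ℕ → F) (hr : ∀ k, φ x₀ (r k) = (Finset.univ.val.map fun x => φ x g).esymm k) :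
    ∑ j ∈ Finset.range (Fintype.card X + 1),
      (-1 : F) ^ j * (r j * g ^ (Fintype.card X - j)) = 0 := by
  classical
  set m : Multiset L := Finset.univ.val.map fun x => φ x g with hm
  have hcardm : Multiset.card m = Fintype.card X := by simp [hm, Finset.card_univ]
  have hpoly := Multiset.prod_X_sub_X_eq_sum_esymm m
  have heval := congrArg (Polynomial.eval (φ x₀ g)) hpoly
  have hzero : Polynomial.eval (φ x₀ g)
      (m.map fun t => Polynomial.X - Polynomial.C t).prod = 0 := by
    rw [Polynomial.eval_multiset_prod]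
    apply Multiset.prod_eq_zero
    rw [Multiset.mem_map]
    refine ⟨Polynomial.X - Polynomial.C (φ x₀ g), ?_, by simp⟩
    rw [Multiset.mem_map]
    exact ⟨φ x₀ g, by rw [hm, Multiset.mem_map]; exact ⟨x₀, Finset.mem_univ_val x₀, rfl⟩, rfl⟩
  rw [hzero, Polynomial.eval_finsetSum, hcardm] at heval
  apply (φ x₀).injective
  rw [map_zero, map_sum, heval]
  refine Finset.sum_congr rfl (fun j _ => ?_)
  rw [map_mul, map_mul, map_pow, map_pow, map_neg, map_one, hr j]
  simp

/-- **Newton polygon lemma, mixed version.** Let `φ x : F →+* L` (`x ∈ X`, finite) be embeddings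
of a field `F` into a valued field `(L, vL)`, `K0 ⊆ F` a subfield and `A` a valuation subring of
`F` whose trace on `K0` is contained in the valuation ring of `vL ∘ φ x₀`. If `g` is a unit of
`A` such that the elementary symmetric functions of the family `(φ x g)_x` are images under
`φ x₀` of elements of `K0`, then `φ x g` is a `vL`-unit for some `x`. -/
theorem exists_valuation_eq_one_of_sym (vL : Valuation L Γ₀) {X : Type*} [Fintype X]
    (φ : X → F →+* L) (K0 : Subfield F) (x₀ : X) (A : ValuationSubring F)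
    (hA : ∀ t ∈ K0, t ∈ A → vL (φ x₀ t) ≤ 1)
    (g : F) (hg : A.valuation g = 1)
    (hsym : ∀ k : ℕ, ∃ r ∈ K0, φ x₀ r = (Finset.univ.val.map fun x => φ x g).esymm k) :
    ∃ x, vL (φ x g) = 1 := by
  classical
  by_contra hcon
  push Not at hcon
  have hg0 : g ≠ 0 := by
    rintro rfl
    simp at hg
  choose r hrK hr using hsym
  obtain ⟨k₀, hk₀, M, hM0, hMk₀, hMlt⟩ := exists_dominant_esymm vL (fun x => φ x g)
    (fun x => (map_ne_zero (φ x)).mpr hg0) hcon
  have hrel := sum_esymm_mul_pow_eq_zero φ x₀ g r hr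
  set μ := Fintype.card X with hμ
  have hc0 : r k₀ ≠ 0 := by
    intro h0
    rw [← hr k₀, h0, map_zero, map_zero] at hMk₀
    exact hM0 hMk₀.symm
  have hlt : ∀ j, j ≠ k₀ → A.valuation (r j) < A.valuation (r k₀) := by
    intro j hj
    by_contra hge
    push Not at hge
    have hrj0 : r j ≠ 0 := by
      rintro h0
      rw [h0, map_zero] at hge
      exact hc0 ((Valuation.zero_iff _).mp (le_zero_iff.mp hge))
    have hmem : r k₀ / r j ∈ A := by
      rw [← ValuationSubring.valuation_le_one_iff, map_div₀]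
      exact div_le_one_of_le₀ hge zero_le
    have h1 := hA _ (K0.div_mem (hrK k₀) (hrK j)) hmem
    rw [map_div₀, map_div₀, hr, hr, hMk₀] at h1
    have h2 := hMlt j hj
    have hj0 : vL ((Finset.univ.val.map fun x => φ x g).esymm j) ≠ 0 := by
      rw [← hr j]
      exact (Valuation.ne_zero_iff vL).mpr ((map_ne_zero (φ x₀)).mpr hrj0)
    have h3 : M ≤ vL ((Finset.univ.val.map fun x => φ x g).esymm j) := by
      have := (div_le_one₀ (zero_lt_iff.mpr hj0)).mp h1
      exact this
    exact absurd h2 (not_lt.mpr h3)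
  have hk₀mem : k₀ ∈ Finset.range (μ + 1) := Finset.mem_range.mpr (by omega)
  have hsplit := Finset.add_sum_erase (Finset.range (μ + 1))
    (fun j => (-1 : F) ^ j * (r j * g ^ (μ - j))) hk₀mem
  rw [hrel] at hsplit
  have hval : ∀ j, A.valuation ((-1 : F) ^ j * (r j * g ^ (μ - j))) = A.valuation (r j) := by
    intro j
    rw [map_mul, map_mul, map_pow, map_pow, Valuation.map_neg, map_one, one_pow, one_mul, hg,
      one_pow, mul_one]
  have hsum : A.valuation (∑ j ∈ (Finset.range (μ + 1)).erase k₀,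
      (-1 : F) ^ j * (r j * g ^ (μ - j))) < A.valuation (r k₀) := by
    refine Valuation.map_sum_lt _ ((Valuation.ne_zero_iff _).mpr hc0) (fun j hj => ?_)
    rw [hval]
    exact hlt j (Finset.ne_of_mem_erase hj)
  have heq : (-1 : F) ^ k₀ * (r k₀ * g ^ (μ - k₀))
      = -∑ j ∈ (Finset.range (μ + 1)).erase k₀, (-1 : F) ^ j * (r j * g ^ (μ - j)) := by
    linear_combination hsplit
  have h4 := hval k₀
  rw [heq, Valuation.map_neg] at h4
  rw [h4] at hsum
  exact lt_irrefl _ hsum

/-- Finitely many affine functions `k ↦ k * α i + β i`, none identically zero, have a common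
non-root `k : ℕ`. -/
theorem exists_nat_forall_mul_add_ne_zero {ι : Type*} (s : Finset ι) (α β : ι → ℤ)
    (h : ∀ i ∈ s, α i ≠ 0 ∨ β i ≠ 0) : ∃ k : ℕ, ∀ i ∈ s, (k : ℤ) * α i + β i ≠ 0 := by
  classical
  let T : Set ℕ := ⋃ i ∈ s, {k : ℕ | (k : ℤ) * α i + β i = 0}
  have hTfin : T.Finite := by
    refine Set.Finite.biUnion s.finite_toSet (fun i hi => ?_)
    have hi' : i ∈ s := hi
    refine Set.Subsingleton.finite ?_
    intro k hk k' hk'
    simp only [Set.mem_ofPred_eq] at hk hk'
    have hα : α i ≠ 0 := by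
      rcases h i hi' with h1 | h1
      · exact h1
      · intro h0
        rw [h0, mul_zero, zero_add] at hk
        exact h1 hk
    have h2 : ((k : ℤ) - k') * α i = 0 := by linear_combination hk - hk'
    rcases mul_eq_zero.mp h2 with h3 | h3
    · exact_mod_cast sub_eq_zero.mp h3
    · exact absurd h3 hα
  obtain ⟨k, hk⟩ := hTfin.infinite_compl.nonempty
  refine ⟨k, fun i hi hzero => hk ?_⟩
  simp only [T, Set.mem_iUnion, Set.mem_ofPred_eq]
  exact ⟨i, hi, hzero⟩

end Fermat.Agent.S24.H34
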