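/-
S24 helper (helper34): places of a field from a finite family of embeddings into a valued field
whose symmetric functions descend to a subfield ("Newton polygon argument").
Design-independent; Mathlib only.
-/
import Mathlib

set_option autoImplicit false

namespace Fermat.Agent.S24.H34

open Finset

variable {F L : Type*} [Field F] [Field L]

/-- A product of elements `< 1` over a nonempty finset is `< 1` (in a linearly ordered
commutative group with zero). -/
theorem prod_lt_one_of_forall_lt_one {Γ₀ : Type*} [LinearOrderedCommGroupWithZero Γ₀]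
    {ι : Type*} (t : Finset ι) (ht : t.Nonempty) (g : ι → Γ₀) (hg : ∀ i ∈ t, g i < 1) :
    ∏ i ∈ t, g i < 1 := by
  classical
  induction ht using Finset.Nonempty.cons_induction with
  | singleton i => simpa using hg i (by simp)
  | cons i s his hs ih =>
    rw [Finset.prod_cons]
    have h1 : g i < 1 := hg i (by simp)
    have h2 : ∏ j ∈ s, g j < 1 := ih (fun j hj => hg j (by simp [hj]))
    exact mul_lt_one_of_lt_of_le h1 h2.le

/-- Approximation for valuation subrings: a valuation subring which is contained in none of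
finitely many valuation subrings contains an element lying outside all of them. -/
theorem exists_mem_forall_not_mem (A : ValuationSubring F) {ι : Type*} (s : Finset ι)
    (B : ι → ValuationSubring F) (h : ∀ i ∈ s, ¬ A ≤ B i) :
    ∃ a ∈ A, ∀ i ∈ s, a ∉ B i := by
  classical
  induction s using Finset.induction_on with
  | empty => exact ⟨1, A.one_mem, by simp⟩
  | insert i s his ih =>
    obtain ⟨a, haA, ha⟩ := ih (fun j hj => h j (Finset.mem_insert_of_mem hj))
    by_cases hai : a ∉ B i
    · exact ⟨a, haA, fun j hj => by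
        rcases Finset.mem_insert.mp hj with rfl | hj
        · exact hai
        · exact ha j hj⟩
    push Not at hai
    have hi : ¬ A ≤ B i := h i (Finset.mem_insert_self i s)
    obtain ⟨b, hbA, hbi⟩ : ∃ b ∈ A, b ∉ B i := by
      by_contra hcon
      push Not at hcon
      exact hi hcon
    -- the set of bad exponents
    let T : Set ℕ := ⋃ j ∈ s, {k | (B j).valuation a ^ k = (B j).valuation b}
    have hTfin : T.Finite := by
      refine Set.Finite.biUnion s.finite_toSet (fun j hj => ?_)
      have hj' : j ∈ s := hj
      have h1 : 1 < (B j).valuation a := by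
        rw [← not_le, ValuationSubring.valuation_le_one_iff]
        exact ha j hj'
      refine Set.Subsingleton.finite ?_
      intro k hk k' hk'
      simp only [Set.mem_ofPred_eq] at hk hk'
      have hinj : StrictMono fun n : ℕ => (B j).valuation a ^ n :=
        pow_right_strictMono₀ h1
      exact hinj.injective (hk.trans hk'.symm)
    obtain ⟨k, hk1, hkT⟩ : ∃ k, 1 ≤ k ∧ k ∉ T := by
      have := ((Set.Ici_infinite (1 : ℕ)).sdiff hTfin).nonempty
      obtain ⟨k, hk⟩ := this
      exact ⟨k, hk.1, hk.2⟩
    refine ⟨a ^ k + b, A.add_mem _ _ (A.pow_mem haA k) hbA, fun j hj => ?_⟩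
    rcases Finset.mem_insert.mp hj with rfl | hj
    · intro hmem
      apply hbi
      have := sub_mem hmem (pow_mem hai k)
      simpa using this
    · have h1 : 1 < (B j).valuation a := by
        rw [← not_le, ValuationSubring.valuation_le_one_iff]
        exact ha j hj
      have hne : (B j).valuation (a ^ k) ≠ (B j).valuation b := by
        rw [map_pow]
        intro heq
        apply hkT
        simp only [T, Set.mem_iUnion, Set.mem_ofPred_eq]
        exact ⟨j, hj, heq⟩
      rw [← ValuationSubring.valuation_le_one_iff, not_le,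
        Valuation.map_add_of_distinct_val _ hne]
      refine lt_max_of_lt_left ?_
      rw [map_pow]
      exact one_lt_pow₀ h1 (by omega)

variable {Γ₀ : Type*} [LinearOrderedCommGroupWithZero Γ₀]

/-- The valuation of an elementary symmetric function of positive degree of elements of
valuation `< 1` is `< 1`. -/
theorem valuation_esymm_lt_one (vL : Valuation L Γ₀) {X : Type*} [Fintype X] (y : X → L)
    (hy : ∀ x, vL (y x) < 1) {k : ℕ} (hk : 1 ≤ k) :
    vL ((Finset.univ.val.map y).esymm k) < 1 := by
  classical
  rw [Finset.esymm_map_val]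
  refine Valuation.map_sum_lt vL one_ne_zero (fun t ht => ?_)
  rw [map_prod]
  have hcard : t.card = k := (Finset.mem_powersetCard.mp ht).2
  have hne : t.Nonempty := by
    rw [← Finset.card_pos]; omega
  exact prod_lt_one_of_forall_lt_one t hne _ (fun i _ => hy i)

/-- **Places from symmetric functions.** Let `φ x : F →+* L` (`x ∈ X`, finite) be embeddings of
a field `F` into a valued field `(L, vL)`, and let `K0 ⊆ F` be a subfield such that for every
`a : F` the elementary symmetric functions of the family `(φ x a)_x` are the image (under one,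
hence every, `φ x₀`) of elements of `K0`. Let `A` be a valuation subring of `F` whose trace on
`K0` is contained in the valuation ring of `vL ∘ φ x₀`. Then `A` is contained in the valuation
ring of `vL ∘ φ x` for some `x`. -/
theorem exists_le_comap_of_sym (vL : Valuation L Γ₀) {X : Type*} [Fintype X]
    (φ : X → F →+* L) (K0 : Subfield F) (x₀ : X)
    (hsym : ∀ (a : F) (k : ℕ), ∃ r ∈ K0, φ x₀ r = (Finset.univ.val.map fun x => φ x a).esymm k)
    (A : ValuationSubring F) (hA : ∀ t ∈ K0, t ∈ A → vL (φ x₀ t) ≤ 1) :
    ∃ x, A ≤ (vL.comap (φ x)).valuationSubring := by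
  classical
  by_contra hcon
  push Not at hcon
  obtain ⟨a, haA, ha⟩ := exists_mem_forall_not_mem A Finset.univ
    (fun x => (vL.comap (φ x)).valuationSubring) (fun x _ => hcon x)
  have ha1 : ∀ x, 1 < vL (φ x a) := by
    intro x
    have := ha x (Finset.mem_univ x)
    rw [Valuation.mem_valuationSubring_iff, Valuation.comap_apply, not_le] at this
    exact this
  have ha0 : a ≠ 0 := by
    rintro rfl
    have := ha1 x₀
    simp at this
  set b : F := a⁻¹ with hb
  have hb1 : ∀ x, vL (φ x b) < 1 := by
    intro x
    rw [hb, map_inv₀, map_inv₀]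
    exact inv_lt_one_of_one_lt₀ (ha1 x)
  -- the elementary symmetric functions of the conjugates of `b`
  set m : Multiset L := Finset.univ.val.map fun x => φ x b with hm
  have hcardm : Multiset.card m = Fintype.card X := by simp [hm, Finset.card_univ]
  choose r hrK hr using fun k => hsym b k
  -- `r k` is a non-unit of `A` for `k ≥ 1`
  have hrA : ∀ k, 1 ≤ k → A.valuation (r k) < 1 := by
    intro k hk
    have hlt : vL (φ x₀ (r k)) < 1 := by
      rw [hr k]
      exact valuation_esymm_lt_one vL _ hb1 hk
    by_contra hge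
    push Not at hge
    have hr0 : r k ≠ 0 := by
      rintro h0
      rw [h0, map_zero] at hge
      exact absurd hge (by simp)
    have hinv : (r k)⁻¹ ∈ A := by
      rw [← ValuationSubring.valuation_le_one_iff, map_inv₀]
      exact inv_le_one_of_one_le₀ hge
    have := hA _ (K0.inv_mem (hrK k)) hinv
    rw [map_inv₀, map_inv₀] at this
    have hpos : vL (φ x₀ (r k)) ≠ 0 := by
      rw [Valuation.ne_zero_iff]
      exact (map_ne_zero (φ x₀)).mpr hr0
    have h1 : 1 ≤ vL (φ x₀ (r k)) := by
      by_contra hlt'
      push Not at hlt'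
      have := one_lt_inv₀ (zero_lt_iff.mpr hpos) |>.mpr hlt'
      exact absurd ‹(vL (φ x₀ (r k)))⁻¹ ≤ 1› (not_le.mpr this)
    exact absurd hlt (not_lt.mpr h1)
  -- the polynomial identity evaluated at `φ x₀ b`
  have hpoly := Multiset.prod_X_sub_X_eq_sum_esymm m
  have heval := congrArg (Polynomial.eval (φ x₀ b)) hpoly
  have hzero : Polynomial.eval (φ x₀ b) (m.map fun t => Polynomial.X - Polynomial.C t).prod = 0 := by
    rw [Polynomial.eval_multiset_prod]
    apply Multiset.prod_eq_zero
    rw [Multiset.mem_map]
    refine ⟨Polynomial.X - Polynomial.C (φ x₀ b), ?_, by simp⟩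
    rw [Multiset.mem_map]
    exact ⟨φ x₀ b, by rw [hm, Multiset.mem_map]; exact ⟨x₀, Finset.mem_univ_val x₀, rfl⟩, rfl⟩
  rw [hzero, Polynomial.eval_finsetSum, hcardm] at heval
  set μ := Fintype.card X with hμ
  -- pull the identity back to `F`
  have hF : ∑ j ∈ Finset.range (μ + 1), (-1 : F) ^ j * (r j * b ^ (μ - j)) = 0 := by
    apply (φ x₀).injective
    rw [map_zero, map_sum, heval]
    refine Finset.sum_congr rfl (fun j _ => ?_)
    rw [map_mul, map_mul, map_pow, map_pow, map_neg, map_one, hr j]
    simp [hm]
  -- multiply by `a ^ μ`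
  have hF2 : ∑ j ∈ Finset.range (μ + 1), (-1 : F) ^ j * (r j * a ^ j) = 0 := by
    have := congrArg (fun z => z * a ^ μ) hF
    simp only [zero_mul, Finset.sum_mul] at this
    rw [← this]
    refine Finset.sum_congr rfl (fun j hj => ?_)
    have hjμ : j ≤ μ := Nat.lt_succ_iff.mp (Finset.mem_range.mp hj)
    have : b ^ (μ - j) * a ^ μ = a ^ j := by
      rw [hb, inv_pow]
      have h2 : a ^ μ = a ^ (μ - j) * a ^ j := by rw [← pow_add]; congr 1; omega
      rw [h2, ← mul_assoc, inv_mul_cancel₀ (pow_ne_zero _ ha0), one_mul]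
    rw [mul_assoc, mul_assoc, this]
  -- `r 0 = 1`
  have hr0 : r 0 = 1 := by
    apply (φ x₀).injective
    rw [hr 0, map_one]
    simp [Multiset.esymm]
  rw [Finset.sum_range_succ', pow_zero, pow_zero, hr0] at hF2
  simp only [one_mul] at hF2
  have hsum : A.valuation (∑ j ∈ Finset.range μ, (-1 : F) ^ (j + 1) * (r (j + 1) * a ^ (j + 1))) < 1 := by
    refine Valuation.map_sum_lt _ one_ne_zero (fun j _ => ?_)
    rw [map_mul, map_mul, map_pow, map_pow, Valuation.map_neg, map_one, one_pow, one_mul]
    have h1 : A.valuation (r (j + 1)) < 1 := hrA (j + 1) (by omega)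
    have h2 : A.valuation a ^ (j + 1) ≤ 1 :=
      pow_le_one₀ zero_le ((ValuationSubring.valuation_le_one_iff A a).mpr haA)
    exact mul_lt_one_of_lt_of_le h1 h2
  have heq : ∑ j ∈ Finset.range μ, (-1 : F) ^ (j + 1) * (r (j + 1) * a ^ (j + 1)) = -1 := by
    linear_combination hF2
  rw [heq, Valuation.map_neg, map_one] at hsum
  exact lt_irrefl _ hsum

/-- A valuation subring which is a principal ideal ring (e.g. a discrete valuation ring) is
maximal among the proper valuation subrings. -/
theorem eq_of_le_of_ne_top (A B : ValuationSubring F) [IsPrincipalIdealRing A] (hAB : A ≤ B)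
    (hB : B ≠ ⊤) : A = B := by
  have h := ValuationSubring.ofPrime_idealOfLE A B hAB
  have key : ∀ (P : Ideal A) [P.IsPrime], A.ofPrime P = ⊤ ∨ A.ofPrime P = A := by
    intro P hP
    by_cases hP0 : P = ⊥
    · subst hP0
      exact Or.inl (ValuationSubring.ofPrime_bot A)
    · have hmax := hP.isMaximal hP0
      have := IsLocalRing.eq_maximalIdeal hmax
      subst this
      exact Or.inr (ValuationSubring.ofPrime_top A)
  rcases key (A.idealOfLE B hAB) with h1 | h1
  · exact absurd (h ▸ h1) hB
  · rw [← h, h1]

/-- **Places from symmetric functions**, for discrete valuation rings: under the hypotheses of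
`exists_le_comap_of_sym`, a valuation subring `A` which is a principal ideal ring is *equal* to
the valuation ring of `vL ∘ φ x` for some `x`, provided these rings are proper. -/
theorem exists_eq_comap_of_sym (vL : Valuation L Γ₀) {X : Type*} [Fintype X]
    (φ : X → F →+* L) (K0 : Subfield F) (x₀ : X)
    (hsym : ∀ (a : F) (k : ℕ), ∃ r ∈ K0, φ x₀ r = (Finset.univ.val.map fun x => φ x a).esymm k)
    (A : ValuationSubring F) [IsPrincipalIdealRing A]
    (hA : ∀ t ∈ K0, t ∈ A → vL (φ x₀ t) ≤ 1)
    (hnt : ∀ x, (vL.comap (φ x)).valuationSubring ≠ ⊤) :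
    ∃ x, A = (vL.comap (φ x)).valuationSubring := by
  obtain ⟨x, hx⟩ := exists_le_comap_of_sym vL φ K0 x₀ hsym A hA
  exact ⟨x, eq_of_le_of_ne_top A _ hx (hnt x)⟩

/-- Elementary symmetric functions of a rescaled family. -/
theorem esymm_map_mul {R : Type*} [CommSemiring R] {X : Type*} [Fintype X] (c : R) (y : X → R)
    (k : ℕ) :
    (Finset.univ.val.map fun x => c * y x).esymm k = c ^ k * (Finset.univ.val.map y).esymm k := by
  classical
  rw [Finset.esymm_map_val, Finset.esymm_map_val, Finset.mul_sum]
  refine Finset.sum_congr rfl (fun t ht => ?_)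
  rw [Finset.prod_mul_distrib, Finset.prod_const, (Finset.mem_powersetCard.mp ht).2]

/-- The symmetric-function hypothesis of `exists_le_comap_of_sym` for all of `F` follows from the
same hypothesis on a subset `R` (e.g. a subring integral over a polynomial ring in `K0`), as soon
as every element of `F` is a quotient `b / t` with `b ∈ R`, `t ∈ K0`, and all embeddings agree
on `K0`. -/
theorem sym_of_sym_on {X : Type*} [Fintype X] (φ : X → F →+* L) (K0 : Subfield F) (x₀ : X)
    (R : Set F) (hK0 : ∀ x, ∀ t ∈ K0, φ x t = φ x₀ t)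
    (hfrac : ∀ a : F, ∃ b ∈ R, ∃ t ∈ K0, t ≠ 0 ∧ a = b / t)
    (hsymR : ∀ a ∈ R, ∀ k : ℕ, ∃ r ∈ K0,
      φ x₀ r = (Finset.univ.val.map fun x => φ x a).esymm k)
    (a : F) (k : ℕ) :
    ∃ r ∈ K0, φ x₀ r = (Finset.univ.val.map fun x => φ x a).esymm k := by
  obtain ⟨b, hbR, t, htK, ht0, rfl⟩ := hfrac a
  obtain ⟨r, hrK, hr⟩ := hsymR b hbR k
  refine ⟨(t⁻¹) ^ k * r, K0.mul_mem (K0.pow_mem (K0.inv_mem htK) k) hrK, ?_⟩
  have h1 : (fun x => φ x (b / t)) = fun x => φ x₀ t⁻¹ * φ x b := by
    funext x
    rw [div_eq_mul_inv, map_mul, mul_comm, hK0 x _ (K0.inv_mem htK)]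
  rw [h1, esymm_map_mul, map_mul, map_pow, hr]

end Fermat.Agent.S24.H34
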